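import Fermat.Agent.GRHGoldbach.Singular

/-!
# The mean square for two primes under the Riemann hypothesis

`∑_{n ≤ X} (∑_{i + j = n} Λ i Λ j - 𝔖₂ n n)² = O (X ^ (8/3) log⁷ X)`.
-/

set_option autoImplicit false

noncomputable section

namespace FA.GRHGoldbach

open Finset Complex
open FA.ThreePrimes (eAdd norm_eAdd eAdd_add moebiusR geomSum twist trigSum clip centre arc)
open FA.GRHThreePrimes (sixth weight centres radius GRHUpTo inv_totient_le_log)
open FA.AlmostGoldbach (pairSum mainPair pairTerm pairSeries pairConst)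
open scoped Real ArithmeticFunction.vonMangoldt

theorem norm_sq_sub_sq_le (x y : ℂ) :
    ‖x ^ 2 - y ^ 2‖ ^ 2 ≤ 2 * ‖x - y‖ ^ 2 * (‖x‖ ^ 2 + ‖y‖ ^ 2) := by
  rw [sq_sub_sq, norm_mul, mul_pow, mul_comm (‖x + y‖ ^ 2), mul_comm (2 : ℝ) (‖x - y‖ ^ 2),
    mul_assoc]
  refine mul_le_mul_of_nonneg_left ((pow_le_pow_left₀ (norm_nonneg _) (norm_add_le x y) 2).trans ?_)
    (sq_nonneg _)
  nlinarith [sq_nonneg (‖x‖ - ‖y‖)]

/-- The sum squared, less the main terms of the arcs through the point. -/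
def remainder (X : ℕ) (h : ℕ) : ℂ :=
  twist ((h : ℝ) / (3 * X : ℕ)) Λ X ^ 2 - ∑ z ∈ centres X,
    if h ∈ arc (3 * X) (radius X z) z then
      ((weight z.1 ^ 2 : ℝ) : ℂ) * geomSum X ((h : ℝ) / (3 * X : ℕ) + -centre z) ^ 2 else 0

theorem exists_sum_remainder_le : ∃ C, 0 ≤ C ∧ ∀ X : ℕ, 64 ≤ X → GRHUpTo X →
    ∑ h ∈ range (3 * X), ‖remainder X h‖ ^ 2 ≤
      C * ((3 * X : ℕ) * (sixth X ^ 10 * Real.log X ^ 4 * (X * Real.log X))) := by
  obtain ⟨C₁, hC₁, hmin⟩ := GRHThreePrimes.exists_minor_bound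
  obtain ⟨C₂, hC₂, hmaj⟩ := GRHThreePrimes.exists_near_bound
  obtain ⟨K, hK, hφsum⟩ := GRHThreePrimes.exists_sum_inv_totient_le
  refine ⟨6 * C₁ ^ 2 + 2 * C₂ ^ 2 * (6 + 2 * K), by positivity, fun X hX hG => ?_⟩
  obtain ⟨t, ht⟩ : ∃ t, t = sixth X := ⟨_, rfl⟩
  obtain ⟨l, hl⟩ : ∃ l, l = Real.log X := ⟨_, rfl⟩
  have ht2 : 2 ≤ t := by
    have h64 : (2 : ℝ) ^ 6 ≤ t ^ 6 := by
      rw [ht, GRHThreePrimes.sixth_pow]
      exact_mod_cast hX
    exact le_of_pow_le_pow_left₀ (by norm_num) (ht ▸ Real.rpow_nonneg (Nat.cast_nonneg X) _) h64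
  have ht0 : 0 < t := by linarith
  have hl1 : 1 ≤ l := by
    rw [hl, Real.le_log_iff_exp_le (Nat.cast_pos.2 (by omega))]
    have : (64 : ℝ) ≤ X := by exact_mod_cast hX
    linarith [Real.exp_one_lt_d9]
  obtain ⟨M, hM⟩ : ∃ M, M = 3 * X := ⟨_, rfl⟩
  rw [← hM, ← ht, ← hl]
  have hXM : X < M := by omega
  have hdisj := GRHThreePrimes.pairwiseDisjoint_arcs (N := X) M (ht ▸ ht2)
  obtain ⟨minor, hminor⟩ : ∃ m, m = range M \ (centres X).biUnion
      fun z => arc M (radius X z) z := ⟨_, rfl⟩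
  obtain ⟨E, hE⟩ : ∃ E, E = t ^ 5 * l ^ 2 := ⟨_, rfl⟩
  have hsq : ∀ S ⊆ range M, ∑ h ∈ S, ‖twist ((h : ℝ) / M) Λ X‖ ^ 2 ≤ M * (6 * X * l) := by
    intro S hS
    refine (sum_le_sum_of_subset_of_nonneg hS fun i _ _ => sq_nonneg _).trans ?_
    simp only [ThreePrimes.twist_eq_trigSum]
    rw [ThreePrimes.sum_norm_sq_grid (fun n => (Λ n : ℂ)) hXM]
    refine mul_le_mul_of_nonneg_left ?_ (Nat.cast_nonneg M)
    refine (sum_le_sum (g := fun n => l * Λ n) fun n hn => ?_).trans ?_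
    · rw [mem_Icc] at hn
      rw [Complex.norm_real, Real.norm_eq_abs, sq_abs, sq, hl]
      exact mul_le_mul_of_nonneg_right (ArithmeticFunction.vonMangoldt_le_log.trans
        (Real.log_le_log (Nat.cast_pos.2 hn.1) (Nat.cast_le.2 hn.2)))
        ArithmeticFunction.vonMangoldt_nonneg
    · rw [← mul_sum, mul_comm _ l]
      exact mul_le_mul_of_nonneg_left (ThreePrimes.sum_vonMangoldt_le X) (by linarith)
  have p1 : ∑ h ∈ minor, ‖remainder X h‖ ^ 2 ≤ (C₁ * E) ^ 2 * (M * (6 * X * l)) := by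
    refine (sum_le_sum (g := fun h : ℕ => (C₁ * E) ^ 2 * ‖twist ((h : ℝ) / M) Λ X‖ ^ 2)
      fun h hh => ?_).trans ?_
    · rw [hminor, mem_sdiff, mem_biUnion] at hh
      rw [remainder, ← hM, sum_eq_zero fun z hz => if_neg fun hmem => hh.2 ⟨z, hz, hmem⟩, sub_zero,
        norm_pow, sq (_ ^ 2)]
      refine mul_le_mul_of_nonneg_right (pow_le_pow_left₀ (norm_nonneg _) ?_ 2) (sq_nonneg _)
      rw [hE, ht, hl]
      refine hmin X (by omega) hG _ fun z hz => ?_
      by_contra hle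
      exact hh.2 ⟨z, hz, mem_filter.2 ⟨hh.1, not_lt.1 hle⟩⟩
    · rw [← mul_sum]
      exact mul_le_mul_of_nonneg_left (hsq _ (hminor ▸ sdiff_subset)) (sq_nonneg _)
  have p2 : ∀ z ∈ centres X, ∀ h ∈ arc M (radius X z) z,
      ‖remainder X h‖ ^ 2 ≤ 2 * (C₂ * E) ^ 2 * (‖twist ((h : ℝ) / M) Λ X‖ ^ 2 +
        weight z.1 ^ 2 * ‖geomSum X ((h : ℝ) / M + -centre z)‖ ^ 2) := by
    rintro ⟨q, r⟩ hz h hh
    rw [remainder, ← hM, sum_eq_single_of_mem _ hz fun w hw hne => if_neg fun hmem =>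
      (disjoint_left.1 (hdisj (mem_coe.2 hw) (mem_coe.2 hz) hne)) hmem hh, if_pos hh,
      Complex.ofReal_pow, ← mul_pow]
    refine (norm_sq_sub_sq_le _ _).trans ?_
    have hn : ‖(weight q : ℂ) * geomSum X ((h : ℝ) / M + -centre ⟨q, r⟩)‖ ^ 2 =
        weight q ^ 2 * ‖geomSum X ((h : ℝ) / M + -centre ⟨q, r⟩)‖ ^ 2 := by
      rw [norm_mul, Complex.norm_real, Real.norm_eq_abs, mul_pow, sq_abs]
    rw [hn]
    refine mul_le_mul_of_nonneg_right (mul_le_mul_of_nonneg_left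
      (pow_le_pow_left₀ (norm_nonneg _) ?_ 2) two_pos.le) (by positivity)
    obtain ⟨hq0, hqt, hu⟩ := GRHThreePrimes.centres_bounds hz
    simp only at hq0 hqt hu
    have : NeZero q := ⟨hq0.ne'⟩
    rw [arc, mem_filter, ThreePrimes.nearDist] at hh
    obtain ⟨k, hk⟩ : ∃ k, k = round ((h : ℝ) / M - centre ⟨q, r⟩) := ⟨_, rfl⟩
    obtain ⟨β, hβ⟩ : ∃ β, β = (h : ℝ) / M - centre ⟨q, r⟩ - k := ⟨_, rfl⟩
    rw [← hk, ← hβ, radius] at hh
    have hq : (q : ℝ) ≠ 0 := Nat.cast_ne_zero.2 hq0.ne'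
    have hα : (h : ℝ) / M = (((r : ℤ) + k * q : ℤ) : ℝ) / q + β := by
      rw [hβ, centre]
      push_cast
      field_simp
      ring
    have hunit : IsUnit (((r : ℤ) + k * q : ℤ) : ZMod q) := by
      push_cast
      rw [ZMod.natCast_self, mul_zero, add_zero]
      exact_mod_cast hu
    have happ := hmaj X (by omega) hG q
      (hqt.trans (le_self_pow₀ (ht ▸ by linarith) (by norm_num))) _ hunit β hh.2
    rw [← hα, ← ht, ← hl, ← hE] at happ
    rwa [hβ, ThreePrimes.geomSum_sub_intCast, sub_eq_add_neg] at happ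
  have hwsum : ∑ z ∈ centres X, weight z.1 ^ 2 ≤ K * (2 * l) := by
    have hP0 : 0 < ⌊t⌋₊ := Nat.floor_pos.2 (by linarith)
    rw [centres, ← ht, ThreePrimes.arcCentres, sum_sigma]
    refine (sum_le_sum (g := fun q : ℕ => ((q.totient : ℕ) : ℝ)⁻¹) fun q hq => ?_).trans
      ((hφsum _ hP0).trans (mul_le_mul_of_nonneg_left ?_ hK))
    · simp only [sum_const]
      rw [ThreePrimes.card_unitResidues, nsmul_eq_mul, ← sq_abs]
      rw [mem_Icc] at hq
      have : (q.totient : ℝ) ≠ 0 := Nat.cast_ne_zero.2 (Nat.totient_pos.2 hq.1).ne'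
      refine (mul_le_mul_of_nonneg_left (pow_le_pow_left₀ (abs_nonneg _)
        (GRHThreePrimes.abs_weight_le q) 2) (Nat.cast_nonneg _)).trans (le_of_eq ?_)
      field_simp
    · have hPX : (⌊t⌋₊ : ℝ) ≤ X := (Nat.floor_le ht0.le).trans ((le_self_pow₀ (by linarith)
        (by norm_num : 6 ≠ 0)).trans_eq (ht ▸ GRHThreePrimes.sixth_pow X))
      have := Real.log_le_log (Nat.cast_pos.2 hP0) hPX
      rw [← hl] at this
      linarith
  have p3 : ∑ z ∈ centres X, ∑ h ∈ arc M (radius X z) z, ‖remainder X h‖ ^ 2 ≤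
      2 * (C₂ * E) ^ 2 * (M * (6 * X * l) + K * (2 * l) * (M * X)) := by
    refine (sum_le_sum fun z hz => sum_le_sum (p2 z hz)).trans ?_
    simp only [← mul_sum, sum_add_distrib]
    refine mul_le_mul_of_nonneg_left (add_le_add ?_ ?_) (by positivity)
    · rw [← sum_biUnion hdisj]
      exact hsq _ (biUnion_subset.2 fun z _ => filter_subset _ _)
    · refine (sum_le_sum fun z _ => mul_le_mul_of_nonneg_left
        ((sum_le_sum_of_subset_of_nonneg (filter_subset _ _) fun i _ _ => sq_nonneg _).trans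
          (le_of_eq (GRHThreePrimes.sum_norm_sq_geomSum hXM _))) (sq_nonneg _)).trans ?_
      rw [← sum_mul]
      exact mul_le_mul_of_nonneg_right hwsum (by positivity)
  rw [show ∑ h ∈ range M, ‖remainder X h‖ ^ 2 = ∑ h ∈ minor, ‖remainder X h‖ ^ 2 +
      ∑ z ∈ centres X, ∑ h ∈ arc M (radius X z) z, ‖remainder X h‖ ^ 2 by
    rw [← sum_biUnion hdisj, hminor, sum_sdiff]
    exact biUnion_subset.2 fun z _ => filter_subset _ _]
  refine (add_le_add p1 p3).trans (le_of_eq ?_)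
  rw [hE]
  ring

/-- **The mean square**, for large `X`. -/
theorem exists_mean_square_large : ∃ C, 0 ≤ C ∧ ∀ X : ℕ, 64 ≤ X → GRHUpTo X →
    ∑ n ∈ Icc 1 X, ‖pairSum (fun i => (Λ i : ℂ)) X n - ((pairSeries n * n : ℝ) : ℂ)‖ ^ 2 ≤
      C * (sixth X ^ 16 * Real.log X ^ 7) := by
  obtain ⟨C, hC, hrem⟩ := exists_sum_remainder_le
  have hPC := AlmostGoldbach.pairConst_nonneg
  refine ⟨2 * C + 16 * (80 + 2 * pairConst) ^ 2, by positivity, fun X hX hG => ?_⟩
  obtain ⟨t, ht⟩ : ∃ t, t = sixth X := ⟨_, rfl⟩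
  obtain ⟨l, hl⟩ : ∃ l, l = Real.log X := ⟨_, rfl⟩
  have ht6 : t ^ 6 = X := ht ▸ GRHThreePrimes.sixth_pow X
  have ht2 : 2 ≤ t := by
    have h64 : (2 : ℝ) ^ 6 ≤ t ^ 6 := by
      rw [ht6]
      exact_mod_cast hX
    exact le_of_pow_le_pow_left₀ (by norm_num) (ht ▸ Real.rpow_nonneg (Nat.cast_nonneg X) _) h64
  have ht0 : 0 < t := by linarith
  have ht1 : 1 ≤ t := by linarith
  have hX1 : (1 : ℝ) ≤ X := by exact_mod_cast (show 1 ≤ X by omega)
  have hl2 : 2 ≤ l := by
    rw [hl, Real.le_log_iff_exp_le (by linarith), show (2 : ℝ) = ((2 : ℕ) : ℝ) * 1 by norm_num,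
      Real.exp_nat_mul]
    have h8 : (64 : ℝ) ≤ X := by exact_mod_cast hX
    refine le_trans ?_ h8
    nlinarith [Real.exp_one_lt_d9, Real.exp_pos 1]
  have hl0 : 0 < l := by linarith
  have hl1 : 1 ≤ l := by linarith
  obtain ⟨M, hM⟩ : ∃ M, M = 3 * X := ⟨_, rfl⟩
  have : NeZero M := ⟨by omega⟩
  have hM' : (M : ℝ) = 3 * X := by rw [hM]; push_cast; ring
  have hM0 : (0 : ℝ) < M := Nat.cast_pos.2 (NeZero.pos M)
  have hlogM : 1 + Real.log M ≤ 3 * l := by
    rw [hM', Real.log_mul (by norm_num) (by linarith), ← hl]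
    have : Real.log 3 ≤ 2 := by
      rw [Real.log_le_iff_le_exp (by norm_num)]
      linarith [Real.add_one_le_exp 2]
    linarith
  obtain ⟨W, hW⟩ : ∃ W : ℕ → ℂ,
      W = fun n : ℕ => ∑ h ∈ range M, remainder X h * eAdd (-(n * ((h : ℝ) / M))) := ⟨_, rfl⟩
  have p1 : ∑ n ∈ Icc 1 X, (‖W n‖ / M) ^ 2 ≤ C * (t ^ 16 * l ^ 5) := by
    simp only [div_pow, ← sum_div]
    rw [div_le_iff₀ (by positivity)]
    refine (sum_le_sum_of_subset_of_nonneg (t := range M) (fun n hn => ?_)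
      fun n _ _ => sq_nonneg _).trans ?_
    · rw [mem_Icc] at hn
      rw [mem_range]
      omega
    rw [hW]
    simp only
    rw [AlmostGoldbach.sum_norm_sq_coeff (NeZero.pos M) _ (subset_refl _)]
    refine (mul_le_mul_of_nonneg_left (hM ▸ hrem X hX hG) hM0.le).trans (le_of_eq ?_)
    rw [← ht, ← hl, ← ht6]
    ring
  have p2 : ∀ n ∈ Icc 1 X, ‖pairSum (fun i => (Λ i : ℂ)) X n - ((pairSeries n * n : ℝ) : ℂ)‖ ≤
      ‖W n‖ / M + (80 + 2 * pairConst) * n.divisors.card * (t ^ 5 * l ^ 2) := by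
    intro n hn
    rw [mem_Icc] at hn
    have hn0 : n ≠ 0 := by omega
    obtain ⟨c, hc⟩ : ∃ c : (Σ _ : ℕ, ℕ) → ℂ, c = fun z =>
        ((weight z.1 ^ 2 : ℝ) : ℂ) * eAdd (-(n * centre z)) := ⟨_, rfl⟩
    obtain ⟨P, hP⟩ : ∃ P, P = ⌊t⌋₊ := ⟨_, rfl⟩
    obtain ⟨S, hS⟩ : ∃ S, S = ∑ q ∈ Icc 1 P, pairTerm n q := ⟨_, rfl⟩
    have hcval : ∑ z ∈ centres X, c z = (S : ℂ) := by
      rw [centres, ← ht, ← hP, ThreePrimes.arcCentres, sum_sigma, hS, Complex.ofReal_sum]
      refine sum_congr rfl fun q hq => ?_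
      rw [mem_Icc] at hq
      rw [hc]
      simp only [weight]
      rw [← mul_sum, AlmostGoldbach.pairTerm_apply, Complex.ofReal_div, Complex.ofReal_mul,
        ThreePrimes.ramanujan_eq hq.1, div_pow, Complex.ofReal_div]
      rw [sum_congr rfl fun r _ => show eAdd (-((n : ℝ) * centre ⟨q, r⟩)) =
        eAdd (((-n : ℤ) : ℝ) * r / q) by simp only [centre]; push_cast; ring_nf]
      push_cast
      ring
    have hJ := AlmostGoldbach.pairSum_one hn.1 hn.2
    have hident : (M : ℂ) * pairSum (fun i => (Λ i : ℂ)) X n -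
        (M : ℂ) * pairSum (fun _ => 1) X n * ∑ z ∈ centres X, c z =
        W n - ∑ z ∈ centres X, c z *
            ∑ h ∈ range M \ arc M (radius X z) z, mainPair X n ((h : ℝ) / M + -centre z) := by
      have hWn : W n = ∑ h ∈ range M, twist ((h : ℝ) / M) Λ X ^ 2 * eAdd (-(n * ((h : ℝ) / M))) -
          ∑ z ∈ centres X, c z *
            ∑ h ∈ arc M (radius X z) z, mainPair X n ((h : ℝ) / M + -centre z) := by
        rw [hW]
        simp only [remainder, ← hM, sub_mul, sum_sub_distrib, sum_mul, ite_mul, zero_mul]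
        congr 1
        rw [sum_comm]
        refine sum_congr rfl fun z _ => ?_
        rw [sum_ite_mem, inter_eq_right.2 (show arc M (radius X z) z ⊆ range M from
          filter_subset _ _), mul_sum]
        refine sum_congr rfl fun h _ => ?_
        rw [hc, mainPair]
        simp only
        have e : eAdd (-((n : ℝ) * centre z)) * eAdd (-(n * ((h : ℝ) / M + -centre z))) =
            eAdd (-(n * ((h : ℝ) / M))) := by
          rw [← eAdd_add]
          ring_nf
        rw [← e]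
        ring
      have h1 : ∀ z ∈ centres X, (M : ℂ) * pairSum (fun _ => 1) X n * c z =
          c z * ∑ h ∈ arc M (radius X z) z, mainPair X n ((h : ℝ) / M + -centre z) +
            c z * ∑ h ∈ range M \ arc M (radius X z) z,
              mainPair X n ((h : ℝ) / M + -centre z) := by
        intro z _
        rw [← mul_add, add_comm (∑ h ∈ arc M _ z, _), sum_sdiff
          (show arc M (radius X z) z ⊆ range M from filter_subset _ _),
          AlmostGoldbach.sum_mainPair_grid (show 3 * X ≤ M by omega) hn.2]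
        ring
      have htotal : ∑ h ∈ range M, twist ((h : ℝ) / M) Λ X ^ 2 * eAdd (-(n * ((h : ℝ) / M))) =
          M * pairSum (fun i => (Λ i : ℂ)) X n := by
        rw [← AlmostGoldbach.sum_square_grid (fun i => (Λ i : ℂ)) (show 3 * X ≤ M by omega) hn.2 0]
        refine sum_congr rfl fun h _ => ?_
        simp only [add_zero, ThreePrimes.twist_eq_trigSum]
      rw [mul_sum, sum_congr rfl h1, sum_add_distrib, hWn, htotal]
      ring
    have hcsum : ∑ z ∈ centres X, ‖c z‖ * (z.1 : ℝ) ≤ t * (4 * l) := by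
      rw [centres, ← ht, ← hP, ThreePrimes.arcCentres, sum_sigma]
      refine (sum_le_card_nsmul _ _ (4 * l) fun q hq => ?_).trans ?_
      · rw [mem_Icc] at hq
        have hqX : q ≤ X := Nat.cast_le.1 (((Nat.cast_le.2 hq.2).trans
          (hP ▸ Nat.floor_le ht0.le)).trans ((le_self_pow₀ ht1 (by norm_num : 6 ≠ 0)).trans_eq ht6))
        refine (sum_le_card_nsmul _ _ (1 / (q.totient : ℝ) ^ 2 * q) fun r _ => ?_).trans ?_
        · rw [hc, norm_mul, norm_eAdd, mul_one, Complex.norm_real, Real.norm_eq_abs, abs_pow,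
            ← one_div_pow]
          exact mul_le_mul_of_nonneg_right (pow_le_pow_left₀ (abs_nonneg _)
            (GRHThreePrimes.abs_weight_le q) 2) (Nat.cast_nonneg q)
        · rw [ThreePrimes.card_unitResidues, nsmul_eq_mul]
          have hφ : (0 : ℝ) < q.totient := Nat.cast_pos.2 (Nat.totient_pos.2 hq.1)
          have hqr : (0 : ℝ) < q := Nat.cast_pos.2 hq.1
          have h1 := inv_totient_le_log hq.1 hqX (by omega)
          rw [← hl, div_le_div_iff₀ hφ hqr, one_mul] at h1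
          refine le_trans (le_of_eq ?_) ((div_le_iff₀ hφ).2 h1)
          field_simp
      · rw [nsmul_eq_mul, Nat.card_Icc, Nat.add_sub_cancel]
        exact mul_le_mul_of_nonneg_right (hP ▸ Nat.floor_le ht0.le) (by positivity)
    have q4 : ∀ z ∈ centres X, ‖∑ h ∈ range M \ arc M (radius X z) z,
        mainPair X n ((h : ℝ) / M + -centre z)‖ ≤ (z.1 : ℝ) * (4 * (t ^ 4 * (M * l))) := by
      intro z hz
      obtain ⟨hq0, hqt, -⟩ := GRHThreePrimes.centres_bounds hz
      have hqr : (0 : ℝ) < z.1 := Nat.cast_pos.2 hq0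
      have hδ0 : 0 < radius X z := by rw [radius, ← ht]; positivity
      obtain ⟨Z, hZ⟩ : ∃ Z, Z = (z.1 : ℝ) * t ^ 4 / 2 := ⟨_, rfl⟩
      have hZ0 : 0 < Z := by rw [hZ]; positivity
      have hZ' : 1 / (2 * radius X z) = Z := by
        rw [hZ, radius, ← ht]
        field_simp
      refine (norm_sum_le _ _).trans ((sum_le_sum (g := fun h : ℕ =>
        Z * clip Z ((h : ℝ) / M - centre z)) fun h hh => ?_).trans ?_)
      · rw [mem_sdiff, arc, mem_filter, not_and, not_le] at hh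
        have hd := hh.2 hh.1
        obtain ⟨d, hde⟩ : ∃ d, d = ThreePrimes.nearDist ((h : ℝ) / M - centre z) := ⟨_, rfl⟩
        rw [← hde] at hd
        rw [← sub_eq_add_neg, mainPair, norm_mul, norm_eAdd, mul_one, norm_pow, sq]
        have h1 := ThreePrimes.norm_geom_le ((h : ℝ) / M - centre z) 0 X
        have h2 : clip ((X - 0 : ℕ) : ℝ) ((h : ℝ) / M - centre z) ≤ 1 / (2 * d) :=
          ThreePrimes.clip_le_inv (hδ0.trans hd) hde.le
        have h3 : 1 / (2 * d) ≤ Z :=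
          hZ' ▸ one_div_le_one_div_of_le (by positivity) (by linarith)
        have h4 : clip Z ((h : ℝ) / M - centre z) = 1 / (2 * d) := by
          rw [clip, if_neg (by rw [← hde]; linarith), ← hde, min_eq_right h3]
        rw [h4]
        have h5 : ‖geomSum X ((h : ℝ) / M - centre z)‖ ≤ 1 / (2 * d) := h1.trans h2
        exact mul_le_mul (h5.trans h3) h5 (norm_nonneg _) hZ0.le
      · rw [← mul_sum]
        refine (mul_le_mul_of_nonneg_left ((sum_le_sum_of_subset_of_nonneg sdiff_subset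
          fun i _ _ => ThreePrimes.clip_nonneg hZ0.le _).trans
            (ThreePrimes.sum_clip_grid_le (centre z) hZ0.le)) hZ0.le).trans ?_
        have hZN : 5 * Z + 2 * (M : ℝ) * (1 + Real.log M) ≤ 8 * (M * l) := by
          have h1 : t ^ 5 ≤ M := by
            rw [hM']
            calc t ^ 5 ≤ t ^ 6 := pow_le_pow_right₀ ht1 (by norm_num)
              _ ≤ _ := by linarith
          have h4 : Z ≤ t ^ 5 / 2 := by
            rw [hZ, show t ^ 5 / 2 = t * t ^ 4 / 2 by ring]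
            have := mul_le_mul_of_nonneg_right (ht ▸ hqt) (show (0 : ℝ) ≤ t ^ 4 by positivity)
            linarith
          have h2 := mul_le_mul_of_nonneg_left hlogM hM0.le
          have h3 := mul_le_mul_of_nonneg_left hl2 hM0.le
          linarith
        refine (mul_le_mul_of_nonneg_left hZN hZ0.le).trans (le_of_eq ?_)
        rw [hZ]
        ring
    have hmain : ‖pairSum (fun i => (Λ i : ℂ)) X n - ((((n : ℝ) - 1) * S : ℝ) : ℂ)‖ ≤
        ‖W n‖ / M + 16 * (t ^ 5 * l ^ 2) := by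
      refine le_of_mul_le_mul_left ?_ hM0
      rw [← Complex.norm_natCast M, ← norm_mul, mul_sub, Complex.ofReal_mul, ← hJ, ← mul_assoc,
        ← hcval, hident, Complex.norm_natCast, mul_add, mul_div_cancel₀ _ hM0.ne']
      refine (norm_sub_le _ _).trans (add_le_add le_rfl ((norm_sum_le _ _).trans
        ((sum_le_sum (g := fun z => ‖c z‖ * (z.1 : ℝ) * (4 * (t ^ 4 * (M * l))))
          fun z hz => ?_).trans ?_)))
      · rw [norm_mul, mul_assoc]
        exact mul_le_mul_of_nonneg_left (q4 z hz) (norm_nonneg _)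
      · rw [← sum_mul]
        exact (mul_le_mul_of_nonneg_right hcsum (by positivity)).trans (le_of_eq (by ring))
    have hst := abs_pairSeries_sub_sixth_le hn0 hX
    rw [← ht, ← hP, ← hS, ← hl] at hst
    rw [show pairSum (fun i => (Λ i : ℂ)) X n - ((pairSeries n * n : ℝ) : ℂ) =
      (pairSum (fun i => (Λ i : ℂ)) X n - ((((n : ℝ) - 1) * S : ℝ) : ℂ)) +
        ((((n : ℝ) - 1) * (S - pairSeries n) - pairSeries n : ℝ) : ℂ) by push_cast; ring]
    refine (norm_add_le _ _).trans ?_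
    rw [Complex.norm_real, Real.norm_eq_abs]
    have hτ : (1 : ℝ) ≤ n.divisors.card := by
      exact_mod_cast Finset.card_pos.2 ⟨1, Nat.one_mem_divisors.2 hn0⟩
    have hA : |((n : ℝ) - 1) * (S - pairSeries n)| ≤
        (64 + pairConst) * n.divisors.card * (t ^ 5 * l ^ 2) := by
      rw [abs_mul, abs_sub_comm S]
      refine (mul_le_mul (b := (X : ℝ)) ?_ hst (abs_nonneg _) (Nat.cast_nonneg X)).trans
        (le_of_eq ?_)
      · have h1 : (1 : ℝ) ≤ n := by exact_mod_cast hn.1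
        have h2 : (n : ℝ) ≤ X := Nat.cast_le.2 hn.2
        rw [abs_of_nonneg (by linarith)]
        linarith
      · rw [← ht6]
        field_simp
    have h1 : 1 ≤ t ^ 5 * l ^ 2 := one_le_mul_of_one_le_of_one_le (one_le_pow₀ ht1)
      (one_le_pow₀ hl1)
    have hB : |pairSeries n| ≤ pairConst * n.divisors.card * (t ^ 5 * l ^ 2) :=
      (AlmostGoldbach.abs_pairSeries_le hn0).trans
        (le_mul_of_one_le_right (by positivity) h1)
    have h3 : 16 * (t ^ 5 * l ^ 2) ≤ 16 * n.divisors.card * (t ^ 5 * l ^ 2) := by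
      have := mul_le_mul_of_nonneg_right hτ (show 0 ≤ t ^ 5 * l ^ 2 by positivity)
      linarith
    have := abs_sub (((n : ℝ) - 1) * (S - pairSeries n)) (pairSeries n)
    linarith
  refine (sum_le_sum fun n hn => (pow_le_pow_left₀ (norm_nonneg _) (p2 n hn) 2).trans
    (add_sq_le (a := ‖W n‖ / M)
      (b := (80 + 2 * pairConst) * n.divisors.card * (t ^ 5 * l ^ 2)))).trans ?_
  rw [← mul_sum, sum_add_distrib, ← ht, ← hl]
  have s2 : ∑ n ∈ Icc 1 X, ((80 + 2 * pairConst) * n.divisors.card * (t ^ 5 * l ^ 2)) ^ 2 ≤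
      (80 + 2 * pairConst) ^ 2 * (8 * (t ^ 16 * l ^ 7)) := by
    have h1 : ∑ n ∈ Icc 1 X, (n.divisors.card : ℝ) ^ 2 ≤ X * (2 * l) ^ 3 := by
      refine (ThreePrimes.sum_card_divisors_sq_le X).trans
        (mul_le_mul_of_nonneg_left (pow_le_pow_left₀ ?_ ?_ 3) (Nat.cast_nonneg X))
      · linarith [ThreePrimes.one_le_logOne X]
      · rw [ThreePrimes.logOne, ← hl]
        linarith
    refine (le_of_eq ?_).trans ((mul_le_mul_of_nonneg_left h1
      (show 0 ≤ (80 + 2 * pairConst) ^ 2 * (t ^ 5 * l ^ 2) ^ 2 by positivity)).trans (le_of_eq ?_))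
    · rw [mul_sum]
      exact sum_congr rfl fun n _ => by ring
    · rw [← ht6]
      ring
  have h5 : t ^ 16 * l ^ 5 ≤ t ^ 16 * l ^ 7 :=
    mul_le_mul_of_nonneg_left (pow_le_pow_right₀ hl1 (by norm_num)) (by positivity)
  have := mul_le_mul_of_nonneg_left h5 hC
  linarith

end FA.GRHGoldbach

end
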