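import Fermat.Agent.GRHGoldbach.Circle

/-!
# The exceptional set in Goldbach's problem under the Riemann hypothesis

All but `O (X ^ (2/3) log⁷ X)` even numbers up to `X` have many representations by two primes.
-/

set_option autoImplicit false

noncomputable section

namespace FA.GRHGoldbach

open Finset
open FA.GRHThreePrimes (sixth GRHUpTo)
open FA.AlmostGoldbach (pairW pairSeries fewPairs goldbachExceptions goldbachCount)
open scoped Real Classical ArithmeticFunction.vonMangoldt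

theorem sixth_sixteen (X : ℕ) : sixth X ^ 16 = (X : ℝ) ^ (8 / 3 : ℝ) := by
  rw [sixth, ← Real.rpow_natCast, ← Real.rpow_mul (Nat.cast_nonneg X)]
  norm_num

/-- **The mean square.** -/
theorem exists_mean_square : ∃ C, 0 ≤ C ∧ ∀ X : ℕ, 2 ≤ X → GRHUpTo X →
    ∑ n ∈ Icc 1 X, (pairW n - pairSeries n * n) ^ 2 ≤
      C * ((X : ℝ) ^ (8 / 3 : ℝ) * Real.log X ^ 7) := by
  obtain ⟨C, hC, h⟩ := exists_mean_square_large
  obtain ⟨S₀, hS₀⟩ : ∃ S₀, S₀ = ∑ n ∈ Icc 1 64, (pairW n - pairSeries n * n) ^ 2 := ⟨_, rfl⟩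
  have hS0 : 0 ≤ S₀ := hS₀ ▸ sum_nonneg fun n _ => sq_nonneg _
  refine ⟨C + 20 * S₀, by positivity, fun X hX hG => ?_⟩
  have hX1 : (1 : ℝ) ≤ X := by exact_mod_cast (show 1 ≤ X by omega)
  obtain ⟨B, hB⟩ : ∃ B, B = (X : ℝ) ^ (8 / 3 : ℝ) * Real.log X ^ 7 := ⟨_, rfl⟩
  rw [← hB]
  have hB1 : (1 / 20 : ℝ) ≤ B := by
    have h1 : (0.69 : ℝ) ≤ Real.log X := by
      have := Real.log_le_log two_pos (show (2 : ℝ) ≤ X by exact_mod_cast hX)
      linarith [Real.log_two_gt_d9]
    have h2 := pow_le_pow_left₀ (by norm_num) h1 7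
    have h3 := mul_le_mul (Real.one_le_rpow hX1 (show (0 : ℝ) ≤ 8 / 3 by norm_num)) h2
      (by norm_num) (by positivity)
    rw [hB]
    linarith
  rcases le_or_gt 64 X with hle | hlt
  · have h1 := h X hle hG
    rw [sixth_sixteen, ← hB] at h1
    refine (le_of_eq_of_le (sum_congr rfl fun n hn => ?_) h1).trans
      (mul_le_mul_of_nonneg_right (by linarith) (by linarith))
    rw [AlmostGoldbach.pairSum_cast (mem_Icc.1 hn).2, ← Complex.ofReal_sub, Complex.norm_real,
      Real.norm_eq_abs, sq_abs]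
  · have h1 : ∑ n ∈ Icc 1 X, (pairW n - pairSeries n * n) ^ 2 ≤ S₀ := hS₀ ▸
      sum_le_sum_of_subset_of_nonneg (Icc_subset_Icc_right hlt.le) fun n _ _ => sq_nonneg _
    have h2 := mul_le_mul_of_nonneg_left hB1 hS0
    have : 0 ≤ C * B := mul_nonneg hC (by linarith)
    linarith

theorem exists_small_logs : ∃ n₀ : ℕ, 2 ≤ n₀ ∧ ∀ n : ℕ, n₀ ≤ n →
    4 * √(n : ℝ) * Real.log n ^ 2 ≤ n / 8 ∧ Real.log n ^ 2 < n / 8 := by
  obtain ⟨K, hK, hpow⟩ := ThreePrimes.exists_log_pow_le 4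
  refine ⟨max 2 ⌈(1024 * K + 1) ^ 2⌉₊, le_max_left _ _, fun n hn => ?_⟩
  have hn1 : (1 : ℝ) ≤ n := by
    exact_mod_cast (show 1 ≤ n from le_trans (by norm_num) ((le_max_left _ _).trans hn))
  obtain ⟨s, hs⟩ : ∃ s, s = √(n : ℝ) := ⟨_, rfl⟩
  have hs2 : s ^ 2 = n := hs ▸ Real.sq_sqrt (Nat.cast_nonneg n)
  have hs0 : 0 ≤ s := hs ▸ Real.sqrt_nonneg _
  have hbig : 1024 * K + 1 ≤ s := by
    rw [hs, Real.le_sqrt (by positivity) (Nat.cast_nonneg n)]
    exact (Nat.le_ceil _).trans (Nat.cast_le.2 ((le_max_right _ _).trans hn))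
  have hp := hpow n hn1
  rw [← hs] at hp ⊢
  have h1 : 4 * s * Real.log n ^ 2 ≤ n / 8 := by
    refine le_of_pow_le_pow_left₀ two_ne_zero (by positivity) ?_
    calc (4 * s * Real.log n ^ 2) ^ 2 = 16 * s ^ 2 * Real.log n ^ 4 := by ring
      _ ≤ 16 * s ^ 2 * (K * s) := mul_le_mul_of_nonneg_left hp (by positivity)
      _ ≤ s ^ 2 * (s * s / 64) := by
          have := mul_le_mul_of_nonneg_right (show 1024 * K ≤ s by linarith)
            (show (0 : ℝ) ≤ s ^ 3 by positivity)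
          linarith
      _ = _ := by rw [← hs2]; ring
  have hs1 : 1 ≤ s := by linarith [mul_nonneg (show (0 : ℝ) ≤ 1024 by norm_num) hK.le]
  have h2 := mul_le_mul_of_nonneg_right hs1 (sq_nonneg (Real.log n))
  refine ⟨h1, ?_⟩
  linarith

theorem card_fewPairs_half (X : ℕ) : ((fewPairs X).card : ℝ) ≤
    (fewPairs (X / 2)).card + ((fewPairs X).filter fun n => X / 2 < n).card := by
  rw [← card_filter_add_card_filter_not (fun n => X / 2 < n) (s := fewPairs X), Nat.cast_add,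
    add_comm]
  refine add_le_add_left (Nat.cast_le.2 (card_le_card fun n hn => ?_)) _
  rw [fewPairs, mem_filter, mem_filter, mem_Icc] at hn
  rw [fewPairs, mem_filter, mem_Icc]
  exact ⟨⟨hn.1.1.1, not_lt.1 hn.2⟩, hn.1.2⟩

/-- The bound on the exceptional set. -/
def exceptBound (X : ℕ) : ℝ := (X : ℝ) ^ (2 / 3 : ℝ) * ThreePrimes.logOne X ^ 7

theorem exists_card_window : ∃ D, 0 ≤ D ∧ ∀ X : ℕ, 1 ≤ X → GRHUpTo X →
    (((fewPairs X).filter fun n => X / 2 < n).card : ℝ) ≤ D * exceptBound X := by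
  obtain ⟨C, hC, h⟩ := exists_mean_square
  obtain ⟨n₀, hn₀, hsmall⟩ := exists_small_logs
  refine ⟨64 * C + n₀, by positivity, fun X hX hG => ?_⟩
  have hX1 : (1 : ℝ) ≤ X := by exact_mod_cast hX
  obtain ⟨B, hB⟩ : ∃ B, B = exceptBound X := ⟨_, rfl⟩
  have hB1 : 1 ≤ B := hB ▸ one_le_mul_of_one_le_of_one_le (Real.one_le_rpow hX1 (by norm_num))
    (one_le_pow₀ (ThreePrimes.one_le_logOne X))
  rw [← hB]
  obtain ⟨S, hS⟩ : ∃ S, S = (fewPairs X).filter fun n => X / 2 < n := ⟨_, rfl⟩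
  rw [← hS]
  have hlow : (((S.filter fun n => n < n₀)).card : ℝ) ≤ n₀ * B := by
    refine le_trans ?_ (le_mul_of_one_le_right (Nat.cast_nonneg _) hB1)
    exact Nat.cast_le.2 ((card_le_card fun n hn => mem_range.2 (mem_filter.1 hn).2).trans_eq
      (card_range n₀))
  have hhigh : (((S.filter fun n => ¬ n < n₀)).card : ℝ) ≤ 64 * C * B := by
    rcases (S.filter fun n => ¬ n < n₀).eq_empty_or_nonempty with he | ⟨m, hm⟩
    · rw [he, card_empty, Nat.cast_zero]
      positivity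
    have hX2 : 2 ≤ X := by
      rw [hS, mem_filter, mem_filter, fewPairs, mem_filter, mem_Icc] at hm
      omega
    obtain ⟨T, hT⟩ : ∃ T, T = S.filter fun n => ¬ n < n₀ := ⟨_, rfl⟩
    rw [← hT]
    have key : (T.card : ℝ) * ((X : ℝ) / 8) ^ 2 ≤
        ∑ n ∈ Icc 1 X, (pairW n - pairSeries n * n) ^ 2 := by
      refine le_trans ?_ (sum_le_sum_of_subset_of_nonneg (hT ▸ hS ▸ (filter_subset _ _).trans
        ((filter_subset _ _).trans (filter_subset _ _))) fun n _ _ => sq_nonneg _)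
      rw [← nsmul_eq_mul]
      refine card_nsmul_le_sum _ _ _ fun n hn => ?_
      rw [hT, hS, mem_filter, mem_filter, fewPairs, mem_filter, mem_Icc, not_lt] at hn
      obtain ⟨⟨⟨⟨hn1, hnX⟩, heven, hfew⟩, hwin⟩, hn0⟩ := hn
      have h1 := AlmostGoldbach.pairW_le hn1 le_rfl
      have h2 := mul_le_mul_of_nonneg_right (AlmostGoldbach.half_le_pairSeries (by omega) heven)
        (Nat.cast_nonneg (α := ℝ) n)
      have h3 := (hsmall n hn0).1
      have h4 : (X : ℝ) ≤ 2 * n := by exact_mod_cast (show X ≤ 2 * n by omega)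
      rw [← sq_abs (pairW n - pairSeries n * n)]
      refine pow_le_pow_left₀ (by positivity) ?_ 2
      linarith [neg_abs_le (pairW n - pairSeries n * n)]
    have hl : Real.log X ^ 7 ≤ ThreePrimes.logOne X ^ 7 :=
      pow_le_pow_left₀ (Real.log_natCast_nonneg X) (by unfold ThreePrimes.logOne; linarith) 7
    have hpow : (X : ℝ) ^ (8 / 3 : ℝ) = (X : ℝ) ^ (2 / 3 : ℝ) * (X : ℝ) ^ 2 := by
      rw [← Real.rpow_natCast, ← Real.rpow_add (by linarith)]
      norm_num
    refine le_of_mul_le_mul_right ((key.trans (h X hX2 hG)).trans ?_)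
      (show (0 : ℝ) < ((X : ℝ) / 8) ^ 2 by positivity)
    rw [hB, exceptBound, hpow]
    calc C * ((X : ℝ) ^ (2 / 3 : ℝ) * (X : ℝ) ^ 2 * Real.log X ^ 7)
        ≤ C * ((X : ℝ) ^ (2 / 3 : ℝ) * (X : ℝ) ^ 2 * ThreePrimes.logOne X ^ 7) := by gcongr
      _ = _ := by ring
  rw [← card_filter_add_card_filter_not (fun n => n < n₀) (s := S), Nat.cast_add]
  linarith

/-- **Few exceptions.** -/
theorem exists_card_fewPairs : ∃ C, 0 ≤ C ∧ ∀ X : ℕ, GRHUpTo X →
    ((fewPairs X).card : ℝ) ≤ C * exceptBound X := by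
  obtain ⟨D, hD, h⟩ := exists_card_window
  refine ⟨4 * D, by positivity, fun X => ?_⟩
  induction X using Nat.strong_induction_on with
  | _ X ih =>
    intro hG
    rcases Nat.eq_zero_or_pos X with rfl | hX
    · simp [fewPairs, exceptBound]
    refine (card_fewPairs_half X).trans ((add_le_add (ih (X / 2) (Nat.div_lt_self hX one_lt_two)
      fun q _ hq => hG q (hq.trans (Nat.div_le_self X 2))) (h X hX hG)).trans ?_)
    have hlog : ThreePrimes.logOne (X / 2) ≤ ThreePrimes.logOne X := by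
      unfold ThreePrimes.logOne
      rcases Nat.eq_zero_or_pos (X / 2) with h0 | h0
      · rw [h0, Nat.cast_zero, Real.log_zero]
        linarith [Real.log_natCast_nonneg X]
      · linarith [Real.log_le_log (Nat.cast_pos.2 h0) (Nat.cast_le.2 (Nat.div_le_self X 2) :
          ((X / 2 : ℕ) : ℝ) ≤ X)]
    have h34 : ((X / 2 : ℕ) : ℝ) ^ (2 / 3 : ℝ) ≤ 3 / 4 * (X : ℝ) ^ (2 / 3 : ℝ) := by
      refine (Real.rpow_le_rpow (Nat.cast_nonneg _) Nat.cast_div_le (by norm_num)).trans ?_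
      rw [Real.div_rpow (Nat.cast_nonneg X) (by positivity), div_eq_inv_mul]
      refine mul_le_mul_of_nonneg_right ?_ (by positivity)
      rw [inv_le_comm₀ (by positivity) (by norm_num)]
      refine le_of_pow_le_pow_left₀ (show 3 ≠ 0 by norm_num) (by positivity) ?_
      rw [← Real.rpow_mul_natCast (by positivity)]
      norm_num
    have h5 : exceptBound (X / 2) ≤ 3 / 4 * exceptBound X := by
      have := mul_le_mul h34 (pow_le_pow_left₀ (by linarith [ThreePrimes.one_le_logOne (X / 2)])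
        hlog 7) (pow_nonneg (by linarith [ThreePrimes.one_le_logOne (X / 2)]) 7) (by positivity)
      refine this.trans (le_of_eq ?_)
      rw [exceptBound]
      ring
    have := mul_le_mul_of_nonneg_left h5 (show 0 ≤ 4 * D by positivity)
    linarith

theorem exists_exceptBound_le : ∃ C, 0 ≤ C ∧ ∀ X : ℕ, 2 ≤ X →
    exceptBound X ≤ C * ((X : ℝ) ^ (2 / 3 : ℝ) * Real.log X ^ 7) := by
  refine ⟨3 ^ 7, by positivity, fun X hX => ?_⟩
  have h := Real.log_le_log two_pos (show (2 : ℝ) ≤ X by exact_mod_cast hX)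
  have h1 : ThreePrimes.logOne X ≤ 3 * Real.log X := by
    unfold ThreePrimes.logOne
    linarith [Real.log_two_gt_d9]
  refine (mul_le_mul_of_nonneg_left (pow_le_pow_left₀ (by linarith [ThreePrimes.one_le_logOne X])
    h1 7) (Real.rpow_nonneg (Nat.cast_nonneg X) _)).trans (le_of_eq ?_)
  ring

theorem goldbachExceptions_subset : ∃ n₀ : ℕ, ∀ X : ℕ,
    goldbachExceptions X ⊆ fewPairs X ∪ range n₀ := by
  obtain ⟨n₀, -, hsmall⟩ := exists_small_logs
  refine ⟨n₀, fun X n hn => ?_⟩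
  rw [goldbachExceptions, mem_filter] at hn
  obtain ⟨hnX, heven, hno⟩ := hn
  rw [mem_union, fewPairs, mem_filter, mem_range]
  refine or_iff_not_imp_right.2 fun hn0 => ⟨hnX, heven, ?_⟩
  have hcnt : goldbachCount n ≤ 1 := by
    refine card_le_one.2 fun x hx y hy => ?_
    rw [mem_filter, mem_Icc] at hx hy
    by_contra hne
    rcases lt_trichotomy x (n - x) with hlt | heq | hgt
    · exact hno ⟨x, n - x, hx.2.1, hx.2.2, hlt, by omega⟩
    · rcases lt_trichotomy y (n - y) with hlt | heq' | hgt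
      · exact hno ⟨y, n - y, hy.2.1, hy.2.2, hlt, by omega⟩
      · omega
      · exact hno ⟨n - y, y, hy.2.2, hy.2.1, hgt, by omega⟩
    · exact hno ⟨n - x, x, hx.2.2, hx.2.1, hgt, by omega⟩
  refine lt_of_le_of_lt ?_ (hsmall n (not_lt.1 hn0)).2
  exact mul_le_of_le_one_left (sq_nonneg _) (by exact_mod_cast hcnt)

/-- **All but few even numbers are sums of two distinct primes.** -/
theorem exists_card_exceptions : ∃ C, 0 ≤ C ∧ ∀ X : ℕ, 2 ≤ X → GRHUpTo X →
    ((goldbachExceptions X).card : ℝ) ≤ C * ((X : ℝ) ^ (2 / 3 : ℝ) * Real.log X ^ 7) := by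
  obtain ⟨C, hC, h⟩ := exists_card_fewPairs
  obtain ⟨n₀, hsub⟩ := goldbachExceptions_subset
  obtain ⟨K, hK, hb⟩ := exists_exceptBound_le
  refine ⟨(C + n₀) * K, by positivity, fun X hX hG => ?_⟩
  refine (Nat.cast_le.2 ((card_le_card (hsub X)).trans (card_union_le _ _))).trans ?_
  rw [Nat.cast_add, card_range, mul_assoc]
  refine le_trans ?_ (mul_le_mul_of_nonneg_left (hb X hX) (by positivity))
  rw [add_mul]
  refine add_le_add (h X hG) (le_mul_of_one_le_right (Nat.cast_nonneg _) ?_)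
  exact one_le_mul_of_one_le_of_one_le
    (Real.one_le_rpow (by exact_mod_cast (show 1 ≤ X by omega)) (by norm_num))
    (one_le_pow₀ (ThreePrimes.one_le_logOne X))

end FA.GRHGoldbach

end
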