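import Fermat.Agent.GRHThreePrimes.Arcs
import Fermat.Agent.AlmostGoldbach.Main

/-!
# The tail of the singular series for two primes, with a power saving

`|𝔖₂ n - ∑_{q ≤ t} A_n q| = O (d n log² X / t)` for `n ≤ X` and `t = X ^ (1/6)`.
-/

set_option autoImplicit false

noncomputable section

namespace FA.GRHGoldbach

open Finset
open FA.GRHThreePrimes (sixth inv_totient_le_log)
open FA.AlmostGoldbach (pairTerm pairSeries pairConst)

theorem sum_dvd_inv_sq_le {d : ℕ} (hd : 0 < d) {P X : ℕ} (hP : 0 < P) :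
    ∑ q ∈ (Ioc P X).filter (d ∣ ·), (d : ℝ) / (q : ℝ) ^ 2 ≤ 2 / P := by
  have hset : (Ioc P X).filter (d ∣ ·) ⊆ (Ioo (P / d) (X + 1)).image (d * ·) := by
    intro q hq
    rw [mem_filter, mem_Ioc] at hq
    obtain ⟨⟨h1, h2⟩, m, rfl⟩ := hq
    exact mem_image.2 ⟨m, mem_Ioo.2 ⟨Nat.div_lt_of_lt_mul h1,
      Nat.lt_succ_of_le ((Nat.le_mul_of_pos_left m hd).trans h2)⟩, rfl⟩
  refine (sum_le_sum_of_subset_of_nonneg hset fun q _ _ => by positivity).trans ?_
  rw [sum_image fun x _ y _ h => Nat.eq_of_mul_eq_mul_left hd h]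
  have hdr : (0 : ℝ) < d := Nat.cast_pos.2 hd
  have hPr : (0 : ℝ) < P := Nat.cast_pos.2 hP
  refine (le_of_eq ?_).trans ((mul_le_mul_of_nonneg_left
    (sum_Ioo_inv_sq_le (α := ℝ) (P / d) (X + 1)) (show 0 ≤ 1 / (d : ℝ) by positivity)).trans ?_)
  · rw [mul_sum]
    refine sum_congr rfl fun m _ => ?_
    push_cast
    field_simp
  · have h1 : (P : ℝ) ≤ d * (((P / d : ℕ) : ℝ) + 1) := by
      exact_mod_cast (Nat.lt_mul_div_succ P hd).le
    rw [one_div, ← div_eq_inv_mul, div_div]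
    exact div_le_div_of_nonneg_left two_pos.le hPr (h1.trans_eq (mul_comm _ _))

theorem sum_abs_pairTerm_Ioc_le {n : ℕ} (hn : n ≠ 0) {P X : ℕ} (hP : 0 < P) (hX : 2 ≤ X) :
    ∑ q ∈ Ioc P X, |pairTerm n q| ≤ n.divisors.card * (32 * Real.log X ^ 2 / P) := by
  refine (sum_le_sum fun q _ => AlmostGoldbach.abs_pairTerm_le hn q).trans ?_
  rw [sum_comm]
  refine (sum_le_card_nsmul _ _ (32 * Real.log X ^ 2 / P) fun d hd => ?_).trans
    (le_of_eq (nsmul_eq_mul _ _))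
  rw [← sum_filter]
  refine (sum_le_sum (g := fun q : ℕ => 16 * Real.log X ^ 2 * ((d : ℝ) / (q : ℝ) ^ 2))
    fun q hq => ?_).trans ?_
  · rw [mem_filter, mem_Ioc] at hq
    have hq0 : 0 < q := by omega
    have h1 := mul_le_mul_of_nonneg_left
      (pow_le_pow_left₀ (by positivity) (inv_totient_le_log hq0 hq.1.2 hX) 2) (Nat.cast_nonneg d)
    rw [one_div_pow, mul_one_div] at h1
    exact h1.trans (le_of_eq (by ring))
  · rw [← mul_sum]
    exact (mul_le_mul_of_nonneg_left (sum_dvd_inv_sq_le (Nat.pos_of_mem_divisors hd) hP)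
      (by positivity)).trans (le_of_eq (by ring))

/-- **The truncation at `X ^ (1/6)`.** -/
theorem abs_pairSeries_sub_sixth_le {n X : ℕ} (hn : n ≠ 0) (hX : 64 ≤ X) :
    |pairSeries n - ∑ q ∈ Icc 1 ⌊sixth X⌋₊, pairTerm n q| ≤
      (64 + pairConst) * n.divisors.card * (Real.log X ^ 2 / sixth X) := by
  obtain ⟨t, ht⟩ : ∃ t, t = sixth X := ⟨_, rfl⟩
  rw [← ht]
  have ht1 : 1 ≤ t := ht ▸ GRHThreePrimes.one_le_sixth (by omega)
  have ht6 : t ^ 6 = X := ht ▸ GRHThreePrimes.sixth_pow X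
  have hP : 0 < ⌊t⌋₊ := Nat.floor_pos.2 ht1
  have hPX : ⌊t⌋₊ ≤ X := Nat.cast_le.1 ((Nat.floor_le (by linarith)).trans
    ((le_self_pow₀ ht1 (by norm_num : 6 ≠ 0)).trans_eq ht6))
  have hl : 1 ≤ Real.log X ^ 2 := by
    refine one_le_pow₀ ?_
    rw [Real.le_log_iff_exp_le (by positivity)]
    have : (64 : ℝ) ≤ X := by exact_mod_cast hX
    linarith [Real.exp_one_lt_d9]
  have hsplit : ∑ q ∈ Icc 1 X, pairTerm n q =
      ∑ q ∈ Icc 1 ⌊t⌋₊, pairTerm n q + ∑ q ∈ Ioc ⌊t⌋₊ X, pairTerm n q := by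
    rw [← sum_union (disjoint_left.2 fun q h1 h2 => by
      rw [mem_Icc] at h1; rw [mem_Ioc] at h2; omega)]
    refine sum_congr ?_ fun q _ => rfl
    ext q
    simp only [mem_Icc, mem_Ioc, mem_union]
    omega
  have hτ : (0 : ℝ) ≤ n.divisors.card := Nat.cast_nonneg _
  have hC := AlmostGoldbach.pairConst_nonneg
  have h1 : |∑ q ∈ Ioc ⌊t⌋₊ X, pairTerm n q| ≤
      64 * n.divisors.card * (Real.log X ^ 2 / t) := by
    refine (abs_sum_le_sum_abs _ _).trans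
      ((sum_abs_pairTerm_Ioc_le hn hP (by omega)).trans ?_)
    have h2 : t / 2 ≤ (⌊t⌋₊ : ℝ) := by
      have := Nat.lt_floor_add_one t
      have h3 : (1 : ℝ) ≤ ⌊t⌋₊ := by exact_mod_cast hP
      linarith
    refine (mul_le_mul_of_nonneg_left (div_le_div_of_nonneg_left (by positivity) (by positivity) h2)
      hτ).trans (le_of_eq ?_)
    field_simp
    ring
  have h2 : pairConst * n.divisors.card * ((X + 1 : ℕ) : ℝ) ^ (-(1 / 4) : ℝ) ≤
      pairConst * n.divisors.card * (Real.log X ^ 2 / t) := by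
    refine mul_le_mul_of_nonneg_left ?_ (by positivity)
    refine ((Real.rpow_le_rpow_of_nonpos (Nat.cast_pos.2 (by omega)) (Nat.cast_le.2
      (Nat.le_succ X)) (by norm_num)).trans (Real.rpow_le_rpow_of_exponent_le
        (by exact_mod_cast (show 1 ≤ X by omega))
        (show (-(1 / 4) : ℝ) ≤ -(1 / 6) by norm_num))).trans
      ?_
    rw [Real.rpow_neg (Nat.cast_nonneg X), ← one_div, ← sixth, ← ht]
    exact div_le_div_of_nonneg_right hl (by linarith)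
  have h3 : |pairSeries n - ∑ q ∈ Icc 1 ⌊t⌋₊, pairTerm n q| ≤
      pairConst * n.divisors.card * ((X + 1 : ℕ) : ℝ) ^ (-(1 / 4) : ℝ) +
        |∑ q ∈ Icc 1 X, pairTerm n q - ∑ q ∈ Icc 1 ⌊t⌋₊, pairTerm n q| :=
    (abs_sub_le _ _ _).trans (add_le_add (AlmostGoldbach.abs_pairSeries_sub_le hn X) le_rfl)
  rw [hsplit, add_sub_cancel_left] at h3
  linarith

end FA.GRHGoldbach

end
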